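/-
S48lib / Rankin / Abel  (helper4).

**From a linear bound on partial sums to a bound on the Dirichlet series.**
If `c n ≥ 0` and `∑_{n < M} c n ≤ A * M` for all `M`, then for every real `s > 1` the series
`∑ c n * n^(-s)` converges and is `≤ 2A (1 + 1/(s-1))`   (`summable_mul_rpow`, `tsum_mul_rpow_le`).
(Abel summation by a direct induction + Mathlib's `ZetaAsymptotics.zeta_limit_aux1`.)
-/
import Mathlib

set_option autoImplicit false
set_option linter.unusedSectionVars false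

noncomputable section

namespace Fermat.Agent.S48lib.Rankin

open Finset

/-- `∑_{n ≥ 1} n^(-s) ≤ 1 + 1/(s-1)` -/
theorem tsum_succ_rpow_le {s : ℝ} (hs : 1 < s) :
    Summable (fun n : ℕ => ((n : ℝ) + 1) ^ (-s)) ∧
      ∑' n : ℕ, ((n : ℝ) + 1) ^ (-s) ≤ 1 + 1 / (s - 1) := by
  have hfun : (fun n : ℕ => ((n : ℝ) + 1) ^ (-s)) = fun n : ℕ => 1 / ((n : ℝ) + 1) ^ s := by
    funext n
    rw [Real.rpow_neg (by positivity), one_div]
  have hsum : Summable (fun n : ℕ => 1 / ((n : ℝ) + 1) ^ s) := by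
    have := (summable_nat_add_iff 1).mpr (Real.summable_one_div_nat_rpow.mpr hs)
    exact_mod_cast this
  rw [hfun]
  refine ⟨hsum, ?_⟩
  have h1 := ZetaAsymptotics.zeta_limit_aux1 hs
  have h2 : 0 ≤ ZetaAsymptotics.termTSum s :=
    tsum_nonneg fun n => ZetaAsymptotics.term_nonneg (n + 1) s
  have h3 : 0 ≤ s * ZetaAsymptotics.termTSum s := mul_nonneg (by linarith) h2
  linarith

variable {c : ℕ → ℝ} {A : ℝ}

/-- Abel summation, inductive form (indices shifted by one) -/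
theorem abel_aux (φ : ℕ → ℝ) (hφ : ∀ n, φ (n + 1) ≤ φ n) {B : ℝ}
    (hS : ∀ M, ∑ n ∈ range M, c n ≤ B * M) (M : ℕ) :
    ∑ n ∈ range (M + 1), c n * φ n +
        (B * ((M : ℝ) + 1) - ∑ n ∈ range (M + 1), c n) * φ M ≤
      B * ∑ n ∈ range (M + 1), φ n := by
  induction M with
  | zero =>
    simp only [zero_add, range_one, sum_singleton, Nat.cast_zero]
    nlinarith
  | succ M ih =>
    rw [sum_range_succ (fun n => c n * φ n) (M + 1), sum_range_succ c (M + 1),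
      sum_range_succ φ (M + 1)]
    have h1 : 0 ≤ B * ((M : ℝ) + 1) - ∑ n ∈ range (M + 1), c n := by
      have := hS (M + 1)
      push_cast at this
      linarith
    have h2 := mul_le_mul_of_nonneg_left (hφ M) h1
    push_cast
    nlinarith

/-- partial sums of `c n * (n+1)^(-s)` -/
theorem sum_mul_succ_rpow_le (hc : ∀ n, 0 ≤ c n) (hA : 0 ≤ A)
    (hS : ∀ M, ∑ n ∈ range M, c n ≤ A * M) {s : ℝ} (hs : 1 < s) (M : ℕ) :
    ∑ n ∈ range M, c (n + 1) * ((n : ℝ) + 1) ^ (-s) ≤ 2 * A * (1 + 1 / (s - 1)) := by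
  -- the shifted sequence has partial sums `≤ 2A * M`
  have hS' : ∀ M, ∑ n ∈ range M, c (n + 1) ≤ 2 * A * M := by
    intro M
    rcases Nat.eq_zero_or_pos M with rfl | hM
    · simp
    have h1 := hS (M + 1)
    rw [sum_range_succ' c M] at h1
    have h2 : (1 : ℝ) ≤ M := by exact_mod_cast hM
    have h3 := hc 0
    push_cast at h1
    nlinarith
  have hφ : ∀ n : ℕ, ((n + 1 : ℕ) : ℝ) + 1 ≤ ((n + 1 : ℕ) : ℝ) + 1 := fun n => le_rfl
  have hanti : ∀ n : ℕ, (((n + 1 : ℕ) : ℝ) + 1) ^ (-s) ≤ ((n : ℝ) + 1) ^ (-s) := by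
    intro n
    refine Real.rpow_le_rpow_of_nonpos (by positivity) ?_ (by linarith)
    push_cast
    linarith
  obtain ⟨hsum, hle⟩ := tsum_succ_rpow_le hs
  have hnn : ∀ n : ℕ, 0 ≤ ((n : ℝ) + 1) ^ (-s) := fun n => Real.rpow_nonneg (by positivity) _
  rcases Nat.eq_zero_or_pos M with rfl | hM
  · simp only [range_zero, sum_empty]
    have : 0 < s - 1 := by linarith
    positivity
  obtain ⟨M', rfl⟩ : ∃ M', M = M' + 1 := ⟨M - 1, by omega⟩
  have h1 := abel_aux (c := fun n => c (n + 1)) (fun n : ℕ => ((n : ℝ) + 1) ^ (-s)) hanti hS' M'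
  have h2 : 0 ≤ (2 * A * ((M' : ℝ) + 1) - ∑ n ∈ range (M' + 1), c (n + 1)) *
      ((M' : ℝ) + 1) ^ (-s) := by
    refine mul_nonneg ?_ (hnn M')
    have := hS' (M' + 1)
    push_cast at this
    linarith
  have h3 : ∑ n ∈ range (M' + 1), ((n : ℝ) + 1) ^ (-s) ≤ ∑' n : ℕ, ((n : ℝ) + 1) ^ (-s) :=
    hsum.sum_le_tsum _ fun n _ => hnn n
  have h4 : 0 ≤ 2 * A := by linarith
  calc ∑ n ∈ range (M' + 1), c (n + 1) * ((n : ℝ) + 1) ^ (-s)
      ≤ 2 * A * ∑ n ∈ range (M' + 1), ((n : ℝ) + 1) ^ (-s) := by linarith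
    _ ≤ 2 * A * (1 + 1 / (s - 1)) := mul_le_mul_of_nonneg_left (h3.trans hle) h4

/-- the Dirichlet series `∑ c n * n^(-s)` converges for `s > 1` -/
theorem summable_mul_rpow (hc : ∀ n, 0 ≤ c n) (hA : 0 ≤ A)
    (hS : ∀ M, ∑ n ∈ range M, c n ≤ A * M) {s : ℝ} (hs : 1 < s) :
    Summable (fun n : ℕ => c n * (n : ℝ) ^ (-s)) := by
  rw [← summable_nat_add_iff 1]
  have h1 : (fun n : ℕ => c (n + 1) * ((n + 1 : ℕ) : ℝ) ^ (-s)) =
      fun n : ℕ => c (n + 1) * ((n : ℝ) + 1) ^ (-s) := by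
    funext n
    push_cast
    rfl
  rw [h1]
  refine summable_of_sum_range_le (fun n => ?_) (sum_mul_succ_rpow_le hc hA hS hs)
  exact mul_nonneg (hc _) (Real.rpow_nonneg (by positivity) _)

/-- the Dirichlet series `∑ c n * n^(-s)` is `≤ 2A (1 + 1/(s-1))` -/
theorem tsum_mul_rpow_le (hc : ∀ n, 0 ≤ c n) (hA : 0 ≤ A)
    (hS : ∀ M, ∑ n ∈ range M, c n ≤ A * M) {s : ℝ} (hs : 1 < s) :
    ∑' n : ℕ, c n * (n : ℝ) ^ (-s) ≤ 2 * A * (1 + 1 / (s - 1)) := by
  have hsum := summable_mul_rpow hc hA hS hs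
  rw [hsum.tsum_eq_zero_add]
  have h0 : c 0 * ((0 : ℕ) : ℝ) ^ (-s) = 0 := by
    rw [Nat.cast_zero, Real.zero_rpow (by linarith), mul_zero]
  rw [h0, zero_add]
  have h1 : (fun n : ℕ => c (n + 1) * ((n + 1 : ℕ) : ℝ) ^ (-s)) =
      fun n : ℕ => c (n + 1) * ((n : ℝ) + 1) ^ (-s) := by
    funext n
    push_cast
    rfl
  rw [h1]
  refine Real.tsum_le_of_sum_range_le (fun n => ?_) (sum_mul_succ_rpow_le hc hA hS hs)
  exact mul_nonneg (hc _) (Real.rpow_nonneg (by positivity) _)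

end Fermat.Agent.S48lib.Rankin
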