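/-
S48lib / Rankin / Local  (helper4).

**The local factor of the Rankin series.**  For `α β : ℂ` with `‖α β‖ = 1` let
`h_m = ∑_{i ≤ m} α^i β^(m-i)` (so `h_m = a_{p^m}` when `1 - a_p T + ε(p) T² = (1 - αT)(1 - βT)`).
If `∑_m ‖h_m‖² X^m` converges (`0 ≤ X < 1`) then

  `(1 - X²) · exp (-2X²) · exp (‖α + β‖² X) ≤ ∑_m ‖h_m‖² X^m`     (`local_lower_bound`).

Proof: convergence forces `‖α‖² X, ‖β‖² X < 1`; then the sum is
`(1 - X²) / ((1 - ‖α‖²X)(1 - ‖β‖²X) ‖1 - αβ̄X‖²)` and `1 - y ≤ exp (-y)`.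
-/
import Mathlib

set_option autoImplicit false
set_option linter.unusedSectionVars false

noncomputable section

namespace Fermat.Agent.S48lib.Rankin

open Finset Complex

/-- complete homogeneous sums `h_m(α, β) = ∑_{i ≤ m} α^i β^(m-i)` -/
def hsum (α β : ℂ) (m : ℕ) : ℂ := ∑ i ∈ range (m + 1), α ^ i * β ^ (m - i)

variable (α β : ℂ)

@[simp] theorem hsum_zero : hsum α β 0 = 1 := by simp [hsum]

theorem hsum_one : hsum α β 1 = α + β := by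
  simp [hsum, Finset.sum_range_succ, add_comm]

theorem hsum_succ (m : ℕ) : hsum α β (m + 1) = α * hsum α β m + β ^ (m + 1) := by
  unfold hsum
  rw [Finset.sum_range_succ' _ (m + 1), Finset.mul_sum]
  congr 1
  · refine Finset.sum_congr rfl fun i _ => ?_
    rw [Nat.succ_sub_succ, pow_succ]
    ring
  · simp

theorem hsum_comm (m : ℕ) : hsum α β m = hsum β α m := by
  unfold hsum
  rw [← Finset.sum_range_reflect]
  refine Finset.sum_congr rfl fun i hi => ?_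
  have hi' : i ≤ m := Nat.lt_succ_iff.1 (Finset.mem_range.1 hi)
  have h1 : m + 1 - 1 - i = m - i := by omega
  have h2 : m - (m - i) = i := by omega
  rw [h1, h2, mul_comm]

theorem hsum_succ' (m : ℕ) : hsum α β (m + 1) = β * hsum α β m + α ^ (m + 1) := by
  rw [hsum_comm, hsum_succ, hsum_comm]

/-- the recurrence `h_{m+2} = (α + β) h_{m+1} - αβ h_m` -/
theorem hsum_succ_succ (m : ℕ) :
    hsum α β (m + 2) = (α + β) * hsum α β (m + 1) - α * β * hsum α β m := by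
  have h1 := hsum_succ α β (m + 1)
  have h2 := hsum_succ α β m
  rw [h1]
  have h3 : β * hsum α β (m + 1) = α * β * hsum α β m + β ^ (m + 1 + 1) := by
    rw [h2]
    ring
  linear_combination (-1 : ℂ) * h3

theorem sub_mul_hsum (m : ℕ) : (α - β) * hsum α β m = α ^ (m + 1) - β ^ (m + 1) := by
  induction m with
  | zero => simp
  | succ m ih =>
    rw [hsum_succ]
    linear_combination α * ih

theorem hsum_self (m : ℕ) : hsum α α m = (m + 1) * α ^ m := by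
  induction m with
  | zero => simp
  | succ m ih =>
    rw [hsum_succ, ih]
    push_cast
    ring

section Analytic

variable {α β}

/-- `‖α - β‖² ‖h_m‖² = ‖α‖^(2(m+1)) + ‖β‖^(2(m+1)) - 2 Re ((α β̄)^(m+1))` -/
theorem norm_sub_sq_mul_norm_hsum_sq (m : ℕ) :
    ‖α - β‖ ^ 2 * ‖hsum α β m‖ ^ 2 =
      (‖α‖ ^ 2) ^ (m + 1) + (‖β‖ ^ 2) ^ (m + 1) -
        2 * ((α * (starRingEnd ℂ) β) ^ (m + 1)).re := by
  rw [← mul_pow, ← norm_mul, sub_mul_hsum, ← Complex.normSq_eq_norm_sq, Complex.normSq_sub,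
    map_pow, map_pow, Complex.normSq_eq_norm_sq, Complex.normSq_eq_norm_sq, map_pow, ← mul_pow]

/-- convergence of the local series forces `‖α‖² X < 1` -/
theorem norm_sq_mul_lt_one_of_summable (hαβ : ‖α * β‖ = 1) {X : ℝ} (hX0 : 0 ≤ X) (hX1 : X < 1)
    (hs : Summable fun m => ‖hsum α β m‖ ^ 2 * X ^ m) : ‖α‖ ^ 2 * X < 1 := by
  by_contra hcon
  rw [not_lt] at hcon
  have hab : ‖α‖ * ‖β‖ = 1 := by rw [← norm_mul, hαβ]
  have hXpos : 0 < X := by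
    rcases hX0.eq_or_lt with h | h
    · rw [← h, mul_zero] at hcon
      linarith
    · exact h
  have ha0 : 0 ≤ ‖α‖ := norm_nonneg _
  have ha1 : 1 < ‖α‖ := by
    by_contra h
    rw [not_lt] at h
    have : ‖α‖ ^ 2 ≤ 1 := pow_le_one₀ ha0 h
    nlinarith
  have hb1 : ‖β‖ ≤ 1 := by
    have hb0 : 0 ≤ ‖β‖ := norm_nonneg _
    nlinarith
  have hne : α ≠ β := by
    rintro rfl
    linarith
  have hd : 0 < ‖α - β‖ := norm_pos_iff.2 (sub_ne_zero.2 hne)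
  -- every term is bounded below by a positive constant
  have key : ∀ m : ℕ, (‖α‖ - 1) ^ 2 / ‖α - β‖ ^ 2 ≤ ‖hsum α β m‖ ^ 2 * X ^ m := by
    intro m
    rw [div_le_iff₀ (by positivity)]
    have h1 : ‖α‖ ^ (m + 1) - 1 ≤ ‖α - β‖ * ‖hsum α β m‖ := by
      rw [← norm_mul, sub_mul_hsum]
      have h2 : ‖α ^ (m + 1)‖ - ‖β ^ (m + 1)‖ ≤ ‖α ^ (m + 1) - β ^ (m + 1)‖ :=
        norm_sub_norm_le _ _
      rw [norm_pow, norm_pow] at h2
      have h3 : ‖β‖ ^ (m + 1) ≤ 1 := pow_le_one₀ (norm_nonneg _) hb1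
      linarith
    have h4 : 0 ≤ ‖α‖ ^ (m + 1) - 1 := by
      have : 1 ≤ ‖α‖ ^ (m + 1) := one_le_pow₀ ha1.le
      linarith
    have h5 : (‖α‖ ^ (m + 1) - 1) ^ 2 ≤ (‖α - β‖ * ‖hsum α β m‖) ^ 2 :=
      pow_le_pow_left₀ h4 h1 2
    have h6 : 1 ≤ (‖α‖ ^ 2 * X) ^ m := one_le_pow₀ hcon
    have h7 : (‖α‖ - 1) ^ 2 * (‖α‖ ^ 2) ^ m ≤ (‖α‖ ^ (m + 1) - 1) ^ 2 := by
      have h8 : (‖α‖ - 1) * ‖α‖ ^ m ≤ ‖α‖ ^ (m + 1) - 1 := by
        have : 1 ≤ ‖α‖ ^ m := one_le_pow₀ ha1.le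
        rw [pow_succ]
        nlinarith
      have h9 : 0 ≤ (‖α‖ - 1) * ‖α‖ ^ m := by
        have : 0 ≤ ‖α‖ ^ m := pow_nonneg ha0 m
        nlinarith
      calc (‖α‖ - 1) ^ 2 * (‖α‖ ^ 2) ^ m = ((‖α‖ - 1) * ‖α‖ ^ m) ^ 2 := by
            rw [mul_pow, ← pow_mul, ← pow_mul, mul_comm 2 m]
        _ ≤ (‖α‖ ^ (m + 1) - 1) ^ 2 := pow_le_pow_left₀ h9 h8 2
    have hXm : 0 ≤ X ^ m := pow_nonneg hX0 m
    calc (‖α‖ - 1) ^ 2 ≤ (‖α‖ - 1) ^ 2 * (‖α‖ ^ 2 * X) ^ m :=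
          le_mul_of_one_le_right (sq_nonneg _) h6
      _ = (‖α‖ - 1) ^ 2 * (‖α‖ ^ 2) ^ m * X ^ m := by rw [mul_pow, mul_assoc]
      _ ≤ (‖α‖ ^ (m + 1) - 1) ^ 2 * X ^ m := mul_le_mul_of_nonneg_right h7 hXm
      _ ≤ (‖α - β‖ * ‖hsum α β m‖) ^ 2 * X ^ m := mul_le_mul_of_nonneg_right h5 hXm
      _ = ‖hsum α β m‖ ^ 2 * X ^ m * ‖α - β‖ ^ 2 := by ring
  have hlim := hs.tendsto_atTop_zero
  have hc : (‖α‖ - 1) ^ 2 / ‖α - β‖ ^ 2 ≤ 0 := ge_of_tendsto' hlim key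
  have hpos : 0 < (‖α‖ - 1) ^ 2 / ‖α - β‖ ^ 2 := by
    have : 0 < ‖α‖ - 1 := by linarith
    positivity
  linarith

theorem closed_form_aux1 {A D n a d q : ℝ} (ha : a ≠ 0) (hd : d ≠ 0) (hq : q ≠ 0) :
    (A / a + D / d - 2 * (n / q)) * (a * d * q) = A * d * q + D * a * q - 2 * n * a * d := by
  field_simp

theorem closed_form_aux {A D b X : ℝ} (hAD : A * D = 1) (hA : 1 - A * X ≠ 0) (hD : 1 - D * X ≠ 0)
    (hQ : 1 - 2 * b * X + X ^ 2 ≠ 0) :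
    A / (1 - A * X) + D / (1 - D * X) - 2 * ((b - X) / (1 - 2 * b * X + X ^ 2)) =
      (A + D - 2 * b) * ((1 - X ^ 2) / ((1 - A * X) * (1 - D * X) * (1 - 2 * b * X + X ^ 2))) := by
  have h0 : (1 - A * X) * (1 - D * X) * (1 - 2 * b * X + X ^ 2) ≠ 0 :=
    mul_ne_zero (mul_ne_zero hA hD) hQ
  have h1 : (A / (1 - A * X) + D / (1 - D * X) - 2 * ((b - X) / (1 - 2 * b * X + X ^ 2))) *
      ((1 - A * X) * (1 - D * X) * (1 - 2 * b * X + X ^ 2)) = (A + D - 2 * b) * (1 - X ^ 2) := by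
    rw [closed_form_aux1 hA hD hQ]
    linear_combination (-2 * X + 2 * b * X ^ 2) * hAD
  have h2 : (A + D - 2 * b) * ((1 - X ^ 2) / ((1 - A * X) * (1 - D * X) * (1 - 2 * b * X + X ^ 2)))
      = ((A + D - 2 * b) * (1 - X ^ 2)) / ((1 - A * X) * (1 - D * X) * (1 - 2 * b * X + X ^ 2)) :=
    (mul_div_assoc _ _ _).symm
  rw [h2]
  exact (eq_div_iff h0).2 h1

/-- real geometric series, shifted -/
theorem hasSum_pow_succ_mul_pow {A X : ℝ} (hA0 : 0 ≤ A) (hX0 : 0 ≤ X) (hAX : A * X < 1) :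
    HasSum (fun m : ℕ => A ^ (m + 1) * X ^ m) (A / (1 - A * X)) := by
  have h1 := (hasSum_geometric_of_lt_one (mul_nonneg hA0 hX0) hAX).mul_left A
  rw [← div_eq_mul_inv] at h1
  have h2 : (fun m : ℕ => A ^ (m + 1) * X ^ m) = fun m : ℕ => A * (A * X) ^ m := by
    funext m
    ring
  rw [h2]
  exact h1

/-- the closed form of the local series, `α ≠ β` -/
theorem hasSum_norm_hsum_sq (hαβ : ‖α * β‖ = 1) (hne : α ≠ β) {X : ℝ} (hX0 : 0 ≤ X)
    (hX1 : X < 1) (hA : ‖α‖ ^ 2 * X < 1) (hD : ‖β‖ ^ 2 * X < 1) :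
    HasSum (fun m => ‖hsum α β m‖ ^ 2 * X ^ m)
      ((1 - X ^ 2) / ((1 - ‖α‖ ^ 2 * X) * (1 - ‖β‖ ^ 2 * X) *
        (1 - 2 * (α * (starRingEnd ℂ) β).re * X + X ^ 2))) := by
  have hab : ‖α‖ * ‖β‖ = 1 := by rw [← norm_mul, hαβ]
  have hAD : ‖α‖ ^ 2 * ‖β‖ ^ 2 = 1 := by rw [← mul_pow, hab, one_pow]
  set B : ℂ := α * (starRingEnd ℂ) β with hB
  have hBn : ‖B‖ = 1 := by rw [hB, norm_mul, RCLike.norm_conj, hab]
  have hBsq : B.re * B.re + B.im * B.im = 1 := by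
    have := Complex.normSq_apply B
    rw [Complex.normSq_eq_norm_sq, hBn, one_pow] at this
    exact this.symm
  -- the three geometric series
  have S1 := hasSum_pow_succ_mul_pow (sq_nonneg ‖α‖) hX0 hA
  have S2 := hasSum_pow_succ_mul_pow (sq_nonneg ‖β‖) hX0 hD
  have hBX : ‖B * (X : ℂ)‖ < 1 := by
    rw [norm_mul, hBn, one_mul, Complex.norm_real, Real.norm_of_nonneg hX0]
    exact hX1
  have S3 := Complex.hasSum_re ((hasSum_geometric_of_norm_lt_one hBX).mul_left B)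
  have hf3 : (fun m : ℕ => (B * (B * (X : ℂ)) ^ m).re) = fun m : ℕ => (B ^ (m + 1)).re * X ^ m := by
    funext m
    have : B * (B * (X : ℂ)) ^ m = B ^ (m + 1) * ((X ^ m : ℝ) : ℂ) := by
      push_cast
      ring
    rw [this, Complex.re_mul_ofReal]
  rw [hf3] at S3
  have hw : (1 - B * (X : ℂ)).re = 1 - B.re * X := by simp
  have hwi : (1 - B * (X : ℂ)).im = -(B.im * X) := by simp
  have hQ : Complex.normSq (1 - B * (X : ℂ)) = 1 - 2 * B.re * X + X ^ 2 := by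
    rw [Complex.normSq_apply, hw, hwi]
    linear_combination (X ^ 2) * hBsq
  have hQpos : 0 < 1 - 2 * B.re * X + X ^ 2 := by
    rw [← hQ]
    refine Complex.normSq_pos.2 fun h0 => ?_
    have h1 : B * (X : ℂ) = 1 := (sub_eq_zero.1 h0).symm
    rw [h1, norm_one] at hBX
    exact lt_irrefl _ hBX
  have hv3 : (B * (1 - B * (X : ℂ))⁻¹).re = (B.re - X) / (1 - 2 * B.re * X + X ^ 2) := by
    rw [← div_eq_mul_inv, Complex.div_re, hQ, hw, hwi, ← add_div]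
    congr 1
    linear_combination (-X) * hBsq
  rw [hv3] at S3
  have S := (S1.add S2).sub (S3.mul_left 2)
  have hA' : 1 - ‖α‖ ^ 2 * X ≠ 0 := by linarith
  have hD' : 1 - ‖β‖ ^ 2 * X ≠ 0 := by linarith
  rw [closed_form_aux hAD hA' hD' hQpos.ne'] at S
  have hd2 : ‖α‖ ^ 2 + ‖β‖ ^ 2 - 2 * B.re = ‖α - β‖ ^ 2 := by
    rw [← Complex.normSq_eq_norm_sq (α - β), Complex.normSq_sub, Complex.normSq_eq_norm_sq,
      Complex.normSq_eq_norm_sq]
  rw [hd2] at S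
  have hd : ‖α - β‖ ^ 2 ≠ 0 := by
    have : 0 < ‖α - β‖ := norm_pos_iff.2 (sub_ne_zero.2 hne)
    positivity
  have S' := S.mul_left (‖α - β‖ ^ 2)⁻¹
  rw [← mul_assoc, inv_mul_cancel₀ hd, one_mul] at S'
  have hfun : (fun m : ℕ => (‖α - β‖ ^ 2)⁻¹ * ((‖α‖ ^ 2) ^ (m + 1) * X ^ m +
      (‖β‖ ^ 2) ^ (m + 1) * X ^ m - 2 * ((B ^ (m + 1)).re * X ^ m))) =
      fun m : ℕ => ‖hsum α β m‖ ^ 2 * X ^ m := by
    funext m
    have h1 := norm_sub_sq_mul_norm_hsum_sq (α := α) (β := β) m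
    rw [← hB] at h1
    have h2 : (‖α‖ ^ 2) ^ (m + 1) * X ^ m + (‖β‖ ^ 2) ^ (m + 1) * X ^ m -
        2 * ((B ^ (m + 1)).re * X ^ m) = ‖α - β‖ ^ 2 * (‖hsum α β m‖ ^ 2 * X ^ m) := by
      linear_combination (-(X ^ m)) * h1
    rw [h2, ← mul_assoc, inv_mul_cancel₀ hd, one_mul]
  rw [hfun] at S'
  exact S'

/-- the closed form of the local series, `α = β` -/
theorem hasSum_norm_hsum_self_sq (hα : ‖α * α‖ = 1) {X : ℝ} (hX0 : 0 ≤ X) (hX1 : X < 1) :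
    HasSum (fun m => ‖hsum α α m‖ ^ 2 * X ^ m) ((1 + X) / (1 - X) ^ 3) := by
  have ha : ‖α‖ = 1 := by
    rw [norm_mul] at hα
    have h0 : 0 ≤ ‖α‖ := norm_nonneg _
    nlinarith
  have hX : ‖X‖ < 1 := by rwa [Real.norm_of_nonneg hX0]
  have T2 := (hasSum_choose_mul_geometric_of_norm_lt_one 2 hX).mul_left 2
  have T1 := hasSum_choose_mul_geometric_of_norm_lt_one 1 hX
  have T := T2.sub T1
  have hne : (1 - X) ≠ 0 := by linarith
  have hval : 2 * (1 / (1 - X) ^ (2 + 1)) - 1 / (1 - X) ^ (1 + 1) = (1 + X) / (1 - X) ^ 3 := by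
    field_simp
    ring
  rw [hval] at T
  have hfun : (fun n : ℕ => 2 * (((n + 2).choose 2 : ℕ) * X ^ n) - ((n + 1).choose 1 : ℕ) * X ^ n) =
      fun m : ℕ => ‖hsum α α m‖ ^ 2 * X ^ m := by
    funext m
    rw [hsum_self, norm_mul, norm_pow, ha, one_pow, mul_one]
    have h1 : ‖((m : ℂ) + 1)‖ = (m : ℝ) + 1 := by
      have : ((m : ℂ) + 1) = (((m : ℝ) + 1 : ℝ) : ℂ) := by push_cast; ring
      rw [this, Complex.norm_real, Real.norm_of_nonneg (by positivity)]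
    rw [h1, Nat.choose_one_right]
    have h2 : (((m + 2).choose 2 : ℕ) : ℝ) * 2 = ((m : ℝ) + 2) * ((m : ℝ) + 1) := by
      have h3 := Nat.choose_two_right (m + 2)
      have h4 : (m + 2) * (m + 2 - 1) = (m + 2).choose 2 * 2 := by
        rw [h3]
        exact (Nat.div_mul_cancel (Nat.even_mul_pred_self (m + 2)).two_dvd).symm
      have h5 : m + 2 - 1 = m + 1 := by omega
      rw [h5] at h4
      have h6 : (((m + 2) * (m + 1) : ℕ) : ℝ) = (((m + 2).choose 2 * 2 : ℕ) : ℝ) := by rw [h4]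
      push_cast at h6
      linarith
    push_cast
    linear_combination (X ^ m) * h2
  rw [hfun] at T
  exact T

theorem one_sub_mul_exp_le {X : ℝ} : (1 - X) * Real.exp X ≤ 1 := by
  have h1 := Real.add_one_le_exp (-X)
  have h2 : (1 - X) * Real.exp X ≤ Real.exp (-X) * Real.exp X :=
    mul_le_mul_of_nonneg_right (by linarith) (Real.exp_pos X).le
  rwa [← Real.exp_add, neg_add_cancel, Real.exp_zero] at h2

/-- **the local lower bound** -/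
theorem local_lower_bound (hαβ : ‖α * β‖ = 1) {X : ℝ} (hX0 : 0 ≤ X) (hX1 : X < 1)
    (hs : Summable fun m => ‖hsum α β m‖ ^ 2 * X ^ m) :
    (1 - X ^ 2) * Real.exp (-(2 * X ^ 2)) * Real.exp (‖α + β‖ ^ 2 * X) ≤
      ∑' m, ‖hsum α β m‖ ^ 2 * X ^ m := by
  have hX2 : 0 ≤ 1 - X ^ 2 := by nlinarith
  by_cases hne : α = β
  · subst hne
    rw [(hasSum_norm_hsum_self_sq hαβ hX0 hX1).tsum_eq]
    have ha : ‖α‖ = 1 := by
      rw [norm_mul] at hαβ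
      have h0 : 0 ≤ ‖α‖ := norm_nonneg _
      nlinarith
    have h4 : ‖α + α‖ ^ 2 = 4 := by
      rw [← two_mul, norm_mul, ha]
      norm_num
    rw [h4]
    have h1X : 0 < 1 - X := by linarith
    have hE : (1 - X) * Real.exp X ≤ 1 := one_sub_mul_exp_le
    have hE0 : 0 ≤ (1 - X) * Real.exp X := mul_nonneg h1X.le (Real.exp_pos _).le
    have hE4 : ((1 - X) * Real.exp X) ^ 4 ≤ 1 := pow_le_one₀ hE0 hE
    have hexp4 : Real.exp (4 * X) = Real.exp X ^ 4 := by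
      rw [← Real.exp_nat_mul]
      norm_num
    have hneg : Real.exp (-(2 * X ^ 2)) ≤ 1 := by
      rw [Real.exp_le_one_iff]
      nlinarith
    rw [le_div_iff₀ (by positivity), hexp4]
    have h5 : (1 - X ^ 2) * Real.exp (-(2 * X ^ 2)) * Real.exp X ^ 4 * (1 - X) ^ 3 * (1 - X) ≤
        (1 + X) * (1 - X) := by
      calc (1 - X ^ 2) * Real.exp (-(2 * X ^ 2)) * Real.exp X ^ 4 * (1 - X) ^ 3 * (1 - X)
          = (1 - X ^ 2) * (Real.exp (-(2 * X ^ 2)) * ((1 - X) * Real.exp X) ^ 4) := by ring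
        _ ≤ (1 - X ^ 2) * (1 * 1) := by
            refine mul_le_mul_of_nonneg_left ?_ hX2
            exact mul_le_mul hneg hE4 (by positivity) zero_le_one
        _ = (1 + X) * (1 - X) := by ring
    exact le_of_mul_le_mul_right h5 h1X
  · have hA := norm_sq_mul_lt_one_of_summable hαβ hX0 hX1 hs
    have hβα : ‖β * α‖ = 1 := by rwa [mul_comm]
    have hs' : Summable fun m => ‖hsum β α m‖ ^ 2 * X ^ m := by
      simpa only [hsum_comm β α] using hs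
    have hD := norm_sq_mul_lt_one_of_summable hβα hX0 hX1 hs'
    rw [(hasSum_norm_hsum_sq hαβ hne hX0 hX1 hA hD).tsum_eq]
    have hab : ‖α‖ * ‖β‖ = 1 := by rw [← norm_mul, hαβ]
    have hAD : ‖α‖ ^ 2 * ‖β‖ ^ 2 = 1 := by rw [← mul_pow, hab, one_pow]
    set b : ℝ := (α * (starRingEnd ℂ) β).re with hb
    have hsum2 : ‖α + β‖ ^ 2 = ‖α‖ ^ 2 + ‖β‖ ^ 2 + 2 * b := by
      rw [← Complex.normSq_eq_norm_sq (α + β), Complex.normSq_add, Complex.normSq_eq_norm_sq,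
        Complex.normSq_eq_norm_sq]
    have hP1 : 0 < 1 - ‖α‖ ^ 2 * X := by linarith
    have hP2 : 0 < 1 - ‖β‖ ^ 2 * X := by linarith
    have hP : (1 - ‖α‖ ^ 2 * X) * (1 - ‖β‖ ^ 2 * X) ≤
        Real.exp (-((‖α‖ ^ 2 + ‖β‖ ^ 2) * X - X ^ 2)) := by
      have h1 := Real.add_one_le_exp (-((‖α‖ ^ 2 + ‖β‖ ^ 2) * X - X ^ 2))
      have h2 : (1 - ‖α‖ ^ 2 * X) * (1 - ‖β‖ ^ 2 * X) =
          -((‖α‖ ^ 2 + ‖β‖ ^ 2) * X - X ^ 2) + 1 := by
        linear_combination (X ^ 2) * hAD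
      rw [h2]
      exact h1
    have hQ : 1 - 2 * b * X + X ^ 2 ≤ Real.exp (-(2 * b * X - X ^ 2)) := by
      have h1 := Real.add_one_le_exp (-(2 * b * X - X ^ 2))
      linarith
    -- positivity of `Q`
    have hbb : b ^ 2 ≤ 1 := by
      have h1 : ‖α * (starRingEnd ℂ) β‖ = 1 := by rw [norm_mul, RCLike.norm_conj, hab]
      have h2 := Complex.abs_re_le_norm (α * (starRingEnd ℂ) β)
      rw [h1] at h2
      rw [← hb] at h2
      exact (sq_le_one_iff_abs_le_one b).2 h2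
    have hQpos : 0 < 1 - 2 * b * X + X ^ 2 := by
      have h1 : |b| ≤ 1 := (sq_le_one_iff_abs_le_one b).1 hbb
      have h2 : b ≤ 1 := (abs_le.1 h1).2
      have h3 : 0 < 1 - b * X := by nlinarith
      nlinarith [sq_nonneg (X - b)]
    have hPQ : (1 - ‖α‖ ^ 2 * X) * (1 - ‖β‖ ^ 2 * X) * (1 - 2 * b * X + X ^ 2) ≤
        Real.exp (-(‖α + β‖ ^ 2 * X - 2 * X ^ 2)) := by
      have h1 : Real.exp (-(‖α + β‖ ^ 2 * X - 2 * X ^ 2)) =
          Real.exp (-((‖α‖ ^ 2 + ‖β‖ ^ 2) * X - X ^ 2)) * Real.exp (-(2 * b * X - X ^ 2)) := by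
        rw [← Real.exp_add, hsum2]
        congr 1
        ring
      rw [h1]
      exact mul_le_mul hP hQ hQpos.le (Real.exp_pos _).le
    have hden : 0 < (1 - ‖α‖ ^ 2 * X) * (1 - ‖β‖ ^ 2 * X) * (1 - 2 * b * X + X ^ 2) :=
      mul_pos (mul_pos hP1 hP2) hQpos
    rw [le_div_iff₀ hden]
    calc (1 - X ^ 2) * Real.exp (-(2 * X ^ 2)) * Real.exp (‖α + β‖ ^ 2 * X) *
          ((1 - ‖α‖ ^ 2 * X) * (1 - ‖β‖ ^ 2 * X) * (1 - 2 * b * X + X ^ 2))
        ≤ (1 - X ^ 2) * Real.exp (-(2 * X ^ 2)) * Real.exp (‖α + β‖ ^ 2 * X) *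
          Real.exp (-(‖α + β‖ ^ 2 * X - 2 * X ^ 2)) := by
          refine mul_le_mul_of_nonneg_left hPQ ?_
          have := Real.exp_pos (-(2 * X ^ 2))
          have := Real.exp_pos (‖α + β‖ ^ 2 * X)
          positivity
      _ = 1 - X ^ 2 := by
          rw [mul_assoc, mul_assoc, ← Real.exp_add, ← Real.exp_add]
          have : -(2 * X ^ 2) + (‖α + β‖ ^ 2 * X + -(‖α + β‖ ^ 2 * X - 2 * X ^ 2)) = 0 := by ring
          rw [this, Real.exp_zero, mul_one]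

end Analytic

end Fermat.Agent.S48lib.Rankin
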