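/-
S48lib / Rankin / Mult  (helper4).

**Multiplicativity from the formal Hecke relations.**  For `a : ℕ → ℂ` with `a 1 = 1` and
`a (p n) + e p · [p ∣ n] a (n / p) = a p · a n` for all primes `p ∤ N`:

* `a_pow_mul`     : `a (p^k n) = a (p^k) a n` for `p ∤ n`;
* `a_pow_eq_hsum` : `a (p^m) = h_m(α, β)` when `α + β = a p`, `α β = e p`;
* `coprimePart_mul` : `n ↦ [gcd(n, N) = 1] a n` is multiplicative on coprime arguments.
-/
import Mathlib
import Fermat.Agent.S48lib.Rankin.Local

set_option autoImplicit false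
set_option linter.unusedSectionVars false

noncomputable section

namespace Fermat.Agent.S48lib.Rankin

variable {N : ℕ} {e a : ℕ → ℂ}

/-- the formal Hecke relations away from `N` -/
def FormalHecke (N : ℕ) (e a : ℕ → ℂ) : Prop :=
  a 1 = 1 ∧ ∀ p : ℕ, p.Prime → ¬ p ∣ N → ∀ n : ℕ,
    a (p * n) + e p * (if p ∣ n then a (n / p) else 0) = a p * a n

variable (h : FormalHecke N e a) {p : ℕ} (hp : p.Prime) (hpN : ¬ p ∣ N)

include h hp hpN

theorem a_prime_mul {n : ℕ} (hn : ¬ p ∣ n) : a (p * n) = a p * a n := by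
  have h1 := h.2 p hp hpN n
  rwa [if_neg hn, mul_zero, add_zero] at h1

theorem a_pow_succ_succ_mul (k n : ℕ) :
    a (p ^ (k + 2) * n) = a p * a (p ^ (k + 1) * n) - e p * a (p ^ k * n) := by
  have h1 := h.2 p hp hpN (p ^ (k + 1) * n)
  have h2 : p ∣ p ^ (k + 1) * n := Dvd.dvd.mul_right (dvd_pow_self p (Nat.succ_ne_zero k)) n
  have h3 : p ^ (k + 1) * n / p = p ^ k * n := by
    rw [pow_succ, mul_comm (p ^ k) p, mul_assoc, Nat.mul_div_cancel_left _ hp.pos]
  have h4 : p * (p ^ (k + 1) * n) = p ^ (k + 2) * n := by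
    rw [← mul_assoc, ← pow_succ']
  rw [if_pos h2, h3, h4] at h1
  linear_combination h1

theorem a_pow_mul (k : ℕ) {n : ℕ} (hn : ¬ p ∣ n) : a (p ^ k * n) = a (p ^ k) * a n := by
  have key : ∀ k : ℕ, a (p ^ k * n) = a (p ^ k) * a n ∧
      a (p ^ (k + 1) * n) = a (p ^ (k + 1)) * a n := by
    intro k
    induction k with
    | zero =>
      refine ⟨by simp [h.1], ?_⟩
      have h1 := a_prime_mul h hp hpN hn
      simpa using h1
    | succ k ih =>
      refine ⟨ih.2, ?_⟩
      have h1 := a_pow_succ_succ_mul h hp hpN k n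
      have h2 := a_pow_succ_succ_mul h hp hpN k 1
      simp only [mul_one] at h2
      rw [h1, ih.1, ih.2, h2]
      ring
  exact (key k).1

theorem a_pow_eq_hsum {α β : ℂ} (hs : α + β = a p) (hm : α * β = e p) (m : ℕ) :
    a (p ^ m) = hsum α β m := by
  have key : ∀ m : ℕ, a (p ^ m) = hsum α β m ∧ a (p ^ (m + 1)) = hsum α β (m + 1) := by
    intro m
    induction m with
    | zero =>
      refine ⟨by simp [h.1], ?_⟩
      rw [hsum_one, hs]
      simp
    | succ m ih =>
      refine ⟨ih.2, ?_⟩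
      have h2 := a_pow_succ_succ_mul h hp hpN m 1
      simp only [mul_one] at h2
      rw [h2, hsum_succ_succ, ih.1, ih.2, hs, hm]
  exact (key m).1

omit hp hpN

/-- the part of `a` supported on integers prime to `N` -/
def coprimePart (N : ℕ) (a : ℕ → ℂ) (n : ℕ) : ℂ := if Nat.Coprime n N then a n else 0

theorem coprimePart_one : coprimePart N a 1 = 1 := by
  simp [coprimePart, h.1]

theorem coprimePart_mul {m n : ℕ} (hmn : Nat.Coprime m n) :
    coprimePart N a (m * n) = coprimePart N a m * coprimePart N a n := by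
  induction m using Nat.recOnPosPrimePosCoprime generalizing n with
  | prime_pow q k hq hk =>
    have hqn : ¬ q ∣ n := by
      intro hdvd
      have h1 : q ∣ Nat.gcd (q ^ k) n := Nat.dvd_gcd (dvd_pow_self q hk.ne') hdvd
      rw [hmn] at h1
      exact hq.one_lt.ne' (Nat.dvd_one.1 h1)
    by_cases hqN : q ∣ N
    · have h1 : ¬ Nat.Coprime (q ^ k * n) N := by
        intro hc
        have h2 : q ∣ Nat.gcd (q ^ k * n) N :=
          Nat.dvd_gcd (Dvd.dvd.mul_right (dvd_pow_self q hk.ne') n) hqN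
        rw [hc] at h2
        exact hq.one_lt.ne' (Nat.dvd_one.1 h2)
      have h3 : ¬ Nat.Coprime (q ^ k) N := by
        intro hc
        have h2 : q ∣ Nat.gcd (q ^ k) N := Nat.dvd_gcd (dvd_pow_self q hk.ne') hqN
        rw [hc] at h2
        exact hq.one_lt.ne' (Nat.dvd_one.1 h2)
      simp [coprimePart, h1, h3]
    · have hqkN : Nat.Coprime (q ^ k) N :=
        Nat.Coprime.pow_left k ((Nat.Prime.coprime_iff_not_dvd hq).2 hqN)
      have h1 : Nat.Coprime (q ^ k * n) N ↔ Nat.Coprime n N := by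
        rw [Nat.coprime_mul_iff_left]
        exact ⟨fun h => h.2, fun h => ⟨hqkN, h⟩⟩
      unfold coprimePart
      by_cases hnN : Nat.Coprime n N
      · rw [if_pos (h1.2 hnN), if_pos hqkN, if_pos hnN]
        exact a_pow_mul h hq hqN k hqn
      · rw [if_neg (fun hc => hnN (h1.1 hc)), if_neg hnN, mul_zero]
  | zero =>
    have hn1 : n = 1 := by simpa using hmn
    subst hn1
    simp [coprimePart_one h]
  | one => simp [coprimePart_one h]
  | coprime m₁ m₂ hm₁ hm₂ hcop ih₁ ih₂ =>
    have hc1 : Nat.Coprime m₁ n := Nat.Coprime.coprime_mul_right hmn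
    have hc2 : Nat.Coprime m₂ n := Nat.Coprime.coprime_mul_left hmn
    have hc3 : Nat.Coprime m₁ (m₂ * n) := Nat.Coprime.mul_right hcop hc1
    rw [mul_assoc, ih₁ hc3, ih₂ hc2, ih₁ hcop]
    ring

end Fermat.Agent.S48lib.Rankin
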