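/-
S48lib / Rankin / Euler  (helper4).

**Rankin's bound over primes from the mean square bound, formal version.**
Let `a : ℕ → ℂ` satisfy the formal Hecke relations away from `N` with `‖e p‖ = 1` (`p ∤ N`) and
`∑_{n < M} ‖a n‖² ≤ A M`.  Then there is a constant `C` with
`∑_{p ∤ N} ‖a p‖² p^{-s} ≤ log (1/(s-1)) + C` for all `1 < s ≤ 2`   (`sum_primes_le`).

Proof: `F n = ‖[gcd(n,N)=1] a n‖² n^{-s}` is multiplicative with `∑ F ≤ 2A(1 + 1/(s-1))`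
(`Abel`); by Mathlib's finite Euler product identity, `∏_{p ∈ S} (∑_m F (p^m)) ≤ ∑ F`;
each local factor is `≥ exp (‖a p‖² p^{-s} - 4 p^{-2s})` (`Local.local_lower_bound`).
-/
import Mathlib
import Fermat.Agent.S48lib.Rankin.Local
import Fermat.Agent.S48lib.Rankin.Abel
import Fermat.Agent.S48lib.Rankin.Mult

set_option autoImplicit false
set_option linter.unusedSectionVars false

noncomputable section

namespace Fermat.Agent.S48lib.Rankin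

open Finset

variable {N : ℕ} {e a : ℕ → ℂ}

/-- the Dirichlet coefficients `‖[gcd(n,N)=1] a n‖² n^{-s}` -/
def rkTerm (N : ℕ) (a : ℕ → ℂ) (s : ℝ) (n : ℕ) : ℝ :=
  ‖coprimePart N a n‖ ^ 2 * (n : ℝ) ^ (-s)

theorem rkTerm_nonneg (s : ℝ) (n : ℕ) : 0 ≤ rkTerm N a s n := by
  unfold rkTerm
  positivity

theorem rkTerm_one (h : FormalHecke N e a) (s : ℝ) : rkTerm N a s 1 = 1 := by
  unfold rkTerm
  rw [coprimePart_one h]
  simp

theorem rkTerm_mul (h : FormalHecke N e a) (s : ℝ) {m n : ℕ} (hmn : Nat.Coprime m n) :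
    rkTerm N a s (m * n) = rkTerm N a s m * rkTerm N a s n := by
  unfold rkTerm
  rw [coprimePart_mul h hmn, norm_mul, mul_pow, Nat.cast_mul,
    Real.mul_rpow (Nat.cast_nonneg m) (Nat.cast_nonneg n)]
  ring

theorem norm_coprimePart_le (n : ℕ) : ‖coprimePart N a n‖ ≤ ‖a n‖ := by
  unfold coprimePart
  split_ifs
  · exact le_rfl
  · simp

theorem sum_coprimePart_sq_le {A : ℝ} (hS : ∀ M : ℕ, ∑ n ∈ range M, ‖a n‖ ^ 2 ≤ A * M) (M : ℕ) :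
    ∑ n ∈ range M, ‖coprimePart N a n‖ ^ 2 ≤ A * M := by
  refine le_trans (Finset.sum_le_sum fun n _ => ?_) (hS M)
  exact pow_le_pow_left₀ (norm_nonneg _) (norm_coprimePart_le n) 2

theorem summable_rkTerm {A : ℝ} (hA : 0 ≤ A) (hS : ∀ M : ℕ, ∑ n ∈ range M, ‖a n‖ ^ 2 ≤ A * M)
    {s : ℝ} (hs : 1 < s) : Summable (rkTerm N a s) :=
  summable_mul_rpow (c := fun n => ‖coprimePart N a n‖ ^ 2) (fun n => by positivity) hA
    (sum_coprimePart_sq_le hS) hs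

theorem tsum_rkTerm_le {A : ℝ} (hA : 0 ≤ A) (hS : ∀ M : ℕ, ∑ n ∈ range M, ‖a n‖ ^ 2 ≤ A * M)
    {s : ℝ} (hs : 1 < s) : ∑' n, rkTerm N a s n ≤ 2 * A * (1 + 1 / (s - 1)) :=
  tsum_mul_rpow_le (c := fun n => ‖coprimePart N a n‖ ^ 2) (fun n => by positivity) hA
    (sum_coprimePart_sq_le hS) hs

/-- roots of `T² - b T + c` -/
theorem exists_add_mul_eq (b c : ℂ) : ∃ α β : ℂ, α + β = b ∧ α * β = c := by
  obtain ⟨z, hz⟩ := IsAlgClosed.exists_eq_mul_self (discrim 1 (-b) c)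
  obtain ⟨x, hx⟩ := exists_quadratic_eq_zero (a := (1 : ℂ)) (b := -b) (c := c) one_ne_zero ⟨z, hz⟩
  refine ⟨x, b - x, by ring, ?_⟩
  linear_combination -hx

theorem natCast_pow_rpow_neg (p m : ℕ) (s : ℝ) :
    (((p ^ m : ℕ) : ℝ)) ^ (-s) = (((p : ℝ)) ^ (-s)) ^ m := by
  rw [Nat.cast_pow, ← Real.rpow_natCast, ← Real.rpow_mul (Nat.cast_nonneg p),
    ← Real.rpow_natCast, ← Real.rpow_mul (Nat.cast_nonneg p), mul_comm]

theorem rkTerm_prime_pow (h : FormalHecke N e a) {p : ℕ} (hp : p.Prime) (hpN : ¬ p ∣ N)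
    {α β : ℂ} (hs : α + β = a p) (hm : α * β = e p) (s : ℝ) (m : ℕ) :
    rkTerm N a s (p ^ m) = ‖hsum α β m‖ ^ 2 * (((p : ℝ)) ^ (-s)) ^ m := by
  have hc : Nat.Coprime (p ^ m) N :=
    Nat.Coprime.pow_left m ((Nat.Prime.coprime_iff_not_dvd hp).2 hpN)
  unfold rkTerm coprimePart
  rw [if_pos hc, a_pow_eq_hsum h hp hpN hs hm m, natCast_pow_rpow_neg]

theorem exp_neg_two_mul_le {y : ℝ} (hy0 : 0 ≤ y) (hy : y ≤ 1 / 2) :
    Real.exp (-(2 * y)) ≤ 1 - y := by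
  have h1 : 1 + 2 * y ≤ Real.exp (2 * y) := by linarith [Real.add_one_le_exp (2 * y)]
  have h2 : 1 ≤ (1 - y) * Real.exp (2 * y) := by
    have := mul_le_mul_of_nonneg_left h1 (by linarith : (0 : ℝ) ≤ 1 - y)
    nlinarith
  have h3 : Real.exp (-(2 * y)) * Real.exp (2 * y) = 1 := by
    rw [← Real.exp_add]
    simp
  calc Real.exp (-(2 * y)) = Real.exp (-(2 * y)) * 1 := (mul_one _).symm
    _ ≤ Real.exp (-(2 * y)) * ((1 - y) * Real.exp (2 * y)) :=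
        mul_le_mul_of_nonneg_left h2 (Real.exp_pos _).le
    _ = (1 - y) * (Real.exp (-(2 * y)) * Real.exp (2 * y)) := by ring
    _ = 1 - y := by rw [h3, mul_one]

theorem prime_rpow_neg_le_half {p : ℕ} (hp : p.Prime) {s : ℝ} (hs : 1 ≤ s) :
    ((p : ℝ)) ^ (-s) ≤ 1 / 2 := by
  have h2 : (2 : ℝ) ≤ p := by exact_mod_cast hp.two_le
  calc ((p : ℝ)) ^ (-s) ≤ ((p : ℝ)) ^ (-1 : ℝ) :=
        Real.rpow_le_rpow_of_exponent_le (by linarith) (by linarith)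
    _ = ((p : ℝ))⁻¹ := Real.rpow_neg_one _
    _ ≤ 1 / 2 := by
        rw [one_div]
        exact inv_anti₀ (by norm_num) h2

/-- the local Euler factor at `p ∤ N` is at least `exp (‖a p‖² p^{-s} - 4 p^{-2s})` -/
theorem exp_le_tsum_prime_pow (h : FormalHecke N e a) {p : ℕ} (hp : p.Prime) (hpN : ¬ p ∣ N)
    (he : ‖e p‖ = 1) {s : ℝ} (hs : 1 ≤ s) (hsm : Summable (rkTerm N a s)) :
    Real.exp (‖a p‖ ^ 2 * ((p : ℝ)) ^ (-s) - 4 * (((p : ℝ)) ^ (-s)) ^ 2) ≤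
      ∑' m, rkTerm N a s (p ^ m) := by
  obtain ⟨α, β, hab, hm⟩ := exists_add_mul_eq (a p) (e p)
  set X : ℝ := ((p : ℝ)) ^ (-s) with hX
  have hX0 : 0 ≤ X := by positivity
  have hXhalf : X ≤ 1 / 2 := prime_rpow_neg_le_half hp hs
  have hX1 : X < 1 := by linarith
  have hfun : (fun m => rkTerm N a s (p ^ m)) = fun m => ‖hsum α β m‖ ^ 2 * X ^ m := by
    funext m
    exact rkTerm_prime_pow h hp hpN hab hm s m
  have hs' : Summable fun m => ‖hsum α β m‖ ^ 2 * X ^ m := by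
    rw [← hfun]
    exact hsm.comp_injective (Nat.pow_right_injective hp.two_le)
  have hαβ : ‖α * β‖ = 1 := by rw [hm, he]
  have key := local_lower_bound hαβ hX0 hX1 hs'
  rw [hfun]
  refine le_trans ?_ key
  rw [hab]
  have hy0 : 0 ≤ X ^ 2 := by positivity
  have hy : X ^ 2 ≤ 1 / 2 := by nlinarith
  have h1 := exp_neg_two_mul_le hy0 hy
  have h2 : Real.exp (‖a p‖ ^ 2 * X - 4 * X ^ 2) =
      Real.exp (-(2 * X ^ 2)) * Real.exp (-(2 * X ^ 2)) * Real.exp (‖a p‖ ^ 2 * X) := by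
    rw [← Real.exp_add, ← Real.exp_add]
    congr 1
    ring
  rw [h2]
  exact mul_le_mul_of_nonneg_right
    (mul_le_mul_of_nonneg_right h1 (Real.exp_pos _).le) (Real.exp_pos _).le

theorem exp_sum_le (h : FormalHecke N e a) (he : ∀ p : ℕ, p.Prime → ¬ p ∣ N → ‖e p‖ = 1)
    {A : ℝ} (hA : 0 ≤ A) (hS : ∀ M : ℕ, ∑ n ∈ range M, ‖a n‖ ^ 2 ≤ A * M)
    {s : ℝ} (hs : 1 < s) (S : Finset ℕ) (hSp : ∀ p ∈ S, p.Prime ∧ ¬ p ∣ N) :
    Real.exp (∑ p ∈ S, (‖a p‖ ^ 2 * ((p : ℝ)) ^ (-s) - 4 * (((p : ℝ)) ^ (-s)) ^ 2)) ≤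
      2 * A * (1 + 1 / (s - 1)) := by
  have hsum : Summable (rkTerm N a s) := summable_rkTerm hA hS hs
  have hEP := EulerProduct.prod_filter_prime_tsum_eq_tsum_factoredNumbers (f := rkTerm N a s)
    (rkTerm_one h s) (fun hmn => rkTerm_mul h s hmn) hsum.norm S
  have hfilter : S.filter Nat.Prime = S := Finset.filter_true_of_mem fun p hp => (hSp p hp).1
  rw [hfilter] at hEP
  rw [Real.exp_sum]
  calc ∏ p ∈ S, Real.exp (‖a p‖ ^ 2 * ((p : ℝ)) ^ (-s) - 4 * (((p : ℝ)) ^ (-s)) ^ 2)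
      ≤ ∏ p ∈ S, ∑' m, rkTerm N a s (p ^ m) :=
        Finset.prod_le_prod (fun _ _ => (Real.exp_pos _).le) fun p hp =>
          exp_le_tsum_prime_pow h (hSp p hp).1 (hSp p hp).2
            (he p (hSp p hp).1 (hSp p hp).2) hs.le hsum
    _ = ∑' m : Nat.factoredNumbers S, rkTerm N a s m := hEP
    _ ≤ ∑' n, rkTerm N a s n := hsum.tsum_subtype_le _ _ (rkTerm_nonneg s)
    _ ≤ 2 * A * (1 + 1 / (s - 1)) := tsum_rkTerm_le hA hS hs

theorem sum_rpow_sq_le {s : ℝ} (hs : 1 ≤ s) (S : Finset ℕ) (hSp : ∀ p ∈ S, p.Prime) :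
    ∑ p ∈ S, (((p : ℝ)) ^ (-s)) ^ 2 ≤ ∑' n : ℕ, 1 / (n : ℝ) ^ 2 := by
  have hsm : Summable (fun n : ℕ => 1 / (n : ℝ) ^ 2) :=
    Real.summable_one_div_nat_pow.2 (by norm_num)
  refine le_trans (Finset.sum_le_sum fun p hp => ?_)
    (hsm.sum_le_tsum S (fun n _ => by positivity))
  have hp1 : (1 : ℝ) ≤ p := by exact_mod_cast (hSp p hp).one_lt.le
  have h1 : ((p : ℝ)) ^ (-s) ≤ ((p : ℝ)) ^ (-1 : ℝ) :=
    Real.rpow_le_rpow_of_exponent_le hp1 (by linarith)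
  rw [Real.rpow_neg_one] at h1
  calc (((p : ℝ)) ^ (-s)) ^ 2 ≤ (((p : ℝ))⁻¹) ^ 2 := pow_le_pow_left₀ (by positivity) h1 2
    _ = 1 / (p : ℝ) ^ 2 := by rw [inv_pow, one_div]

theorem sum_primes_le_aux (h : FormalHecke N e a)
    (he : ∀ p : ℕ, p.Prime → ¬ p ∣ N → ‖e p‖ = 1)
    {A : ℝ} (hA : 0 < A) (hS : ∀ M : ℕ, ∑ n ∈ range M, ‖a n‖ ^ 2 ≤ A * M)
    {s : ℝ} (hs : 1 < s) (hs2 : s ≤ 2) (S : Finset ℕ) (hSp : ∀ p ∈ S, p.Prime ∧ ¬ p ∣ N) :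
    ∑ p ∈ S, ‖a p‖ ^ 2 * ((p : ℝ)) ^ (-s) ≤
      Real.log (1 / (s - 1)) + (Real.log (4 * A) + 4 * ∑' n : ℕ, 1 / (n : ℝ) ^ 2) := by
  have h1 := exp_sum_le h he hA.le hS hs S hSp
  have hs1 : 0 < s - 1 := by linarith
  have hinv : 0 < 1 / (s - 1) := by positivity
  have h2 : 2 * A * (1 + 1 / (s - 1)) ≤ 4 * A * (1 / (s - 1)) := by
    have h3 : 1 ≤ 1 / (s - 1) := by
      rw [le_div_iff₀ hs1]
      linarith
    nlinarith
  have h3 : ∑ p ∈ S, (‖a p‖ ^ 2 * ((p : ℝ)) ^ (-s) - 4 * (((p : ℝ)) ^ (-s)) ^ 2) ≤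
      Real.log (4 * A * (1 / (s - 1))) := by
    rw [Real.le_log_iff_exp_le (by positivity)]
    exact le_trans h1 h2
  rw [Real.log_mul (by positivity) hinv.ne', Finset.sum_sub_distrib, ← Finset.mul_sum] at h3
  have h4 := sum_rpow_sq_le hs.le S fun p hp => (hSp p hp).1
  linarith

/-- **Rankin's bound over primes, formal version.** -/
theorem sum_primes_le (h : FormalHecke N e a) (he : ∀ p : ℕ, p.Prime → ¬ p ∣ N → ‖e p‖ = 1)
    {A : ℝ} (hA : 0 ≤ A) (hS : ∀ M : ℕ, ∑ n ∈ range M, ‖a n‖ ^ 2 ≤ A * M) :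
    ∃ C : ℝ, ∀ s : ℝ, 1 < s → s ≤ 2 →
      Summable (fun p : Nat.Primes => if (p : ℕ) ∣ N then 0 else
        ‖a p‖ ^ 2 * ((p : ℕ) : ℝ) ^ (-s)) ∧
      ∑' p : Nat.Primes, (if (p : ℕ) ∣ N then 0 else ‖a p‖ ^ 2 * ((p : ℕ) : ℝ) ^ (-s)) ≤
        Real.log (1 / (s - 1)) + C := by
  have hA' : 0 < A + 1 := by linarith
  have hS' : ∀ M : ℕ, ∑ n ∈ range M, ‖a n‖ ^ 2 ≤ (A + 1) * M := fun M =>
    le_trans (hS M) (mul_le_mul_of_nonneg_right (by linarith) (Nat.cast_nonneg M))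
  refine ⟨Real.log (4 * (A + 1)) + 4 * ∑' n : ℕ, 1 / (n : ℝ) ^ 2, fun s hs hs2 => ?_⟩
  have hnn : 0 ≤ fun p : Nat.Primes => if (p : ℕ) ∣ N then (0 : ℝ) else
      ‖a p‖ ^ 2 * ((p : ℕ) : ℝ) ^ (-s) := by
    intro p
    dsimp only
    split_ifs
    · exact le_rfl
    · positivity
  have hbound : ∀ u : Finset Nat.Primes, ∑ p ∈ u, (if (p : ℕ) ∣ N then (0 : ℝ) else
      ‖a p‖ ^ 2 * ((p : ℕ) : ℝ) ^ (-s)) ≤
      Real.log (1 / (s - 1)) + (Real.log (4 * (A + 1)) + 4 * ∑' n : ℕ, 1 / (n : ℝ) ^ 2) := by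
    intro u
    rw [Finset.sum_ite, Finset.sum_const_zero, zero_add]
    have hmap := Finset.sum_map (u.filter fun p : Nat.Primes => ¬ (p : ℕ) ∣ N)
      ⟨fun p : Nat.Primes => (p : ℕ), Subtype.val_injective⟩
      (fun q : ℕ => ‖a q‖ ^ 2 * (q : ℝ) ^ (-s))
    simp only [Function.Embedding.coeFn_mk] at hmap
    rw [← hmap]
    refine sum_primes_le_aux h he hA' hS' hs hs2 _ fun q hq => ?_
    rw [Finset.mem_map] at hq
    obtain ⟨p, hp, rfl⟩ := hq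
    rw [Finset.mem_filter] at hp
    exact ⟨p.2, hp.2⟩
  exact ⟨summable_of_sum_le hnn hbound, Real.tsum_le_of_sum_le hnn hbound⟩

end Fermat.Agent.S48lib.Rankin
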