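/-
S48lib / Rankin / MeanSquare  (helper4).

**Mean square of the `q`-coefficients of a weight one cusp form** (elementary Rankin bound).
For `f ∈ S₁(Γ₁(N))` with `q`-coefficients `a n`:

* `sum_sq_mul_exp_le` : `∑_{n ∈ S} ‖a n‖² e^{-4πnt} ≤ B / t` for all `t > 0`
  (Hecke's bound `‖f τ‖ ≤ C (im τ)^{-1/2}` + Parseval on the horizontal line `im τ = t`);
* `sum_sq_le` : `∑_{n < M} ‖a n‖² ≤ A * M` for `M ≥ 1`.
-/
import Mathlib
import Fermat.Prelude.Def_FLTPrelim_Modularity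

set_option autoImplicit false
set_option linter.unusedSectionVars false

noncomputable section

namespace Fermat.Agent.S48lib.Rankin

open CongruenceSubgroup ModularFormClass MeasureTheory Complex
open UpperHalfPlane hiding I
open scoped MatrixGroups Real

variable {N : ℕ} [NeZero N]

theorem one_mem_strictPeriods_Gamma1 (N : ℕ) :
    (1 : ℝ) ∈ (Gamma1 N : Subgroup (GL (Fin 2) ℝ)).strictPeriods := by
  simp [CongruenceSubgroup.strictPeriods_Gamma1]

/-- the restriction of `f` to the horizontal line `im τ = t` -/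
def lineFun (f : CuspForm (Gamma1 N) 1) {t : ℝ} (ht : 0 < t) (u : ℝ) : ℂ :=
  f ⟨(u : ℂ) + t * I, by simpa using ht⟩

theorem continuous_lineFun (f : CuspForm (Gamma1 N) 1) {t : ℝ} (ht : 0 < t) :
    Continuous (lineFun f ht) := by
  unfold lineFun
  have h1 : Continuous fun u : ℝ => (⟨(u : ℂ) + t * I, by simpa using ht⟩ : ℍ) :=
    Continuous.upperHalfPlaneMk (by fun_prop) _
  exact (CuspFormClass.holo f).continuous.comp h1

/-- the `n`-th `q`-coefficient via the Fourier coefficient of the restriction to a horizontal line -/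
theorem qCoeff_eq_exp_mul_fourierCoeffOn (f : CuspForm (Gamma1 N) 1) {t : ℝ} (ht : 0 < t) (n : ℕ) :
    qCoeff f n = Complex.exp (2 * π * n * t) *
      fourierCoeffOn (zero_lt_one : (0 : ℝ) < 1) (lineFun f ht) n := by
  have h1 := ModularFormClass.qExpansion_coeff_eq_intervalIntegral (h := 1) f one_pos
    (one_mem_strictPeriods_Gamma1 N) n ht
  rw [qCoeff, h1, fourierCoeffOn_eq_integral]
  simp only [ofReal_one, div_one, one_mul, sub_zero, one_smul, smul_eq_mul]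
  rw [← intervalIntegral.integral_const_mul]
  refine intervalIntegral.integral_congr fun u _ => ?_
  simp only [lineFun]
  rw [← mul_assoc]
  congr 1
  rw [fourier_coe_apply, Function.Periodic.qParam, ← Complex.exp_nat_mul, one_div,
    ← Complex.exp_neg, ← Complex.exp_add]
  congr 1
  push_cast
  have hI : I * I = -1 := I_mul_I
  ring_nf
  rw [I_sq]
  ring

/-- Hecke's bound on a horizontal line -/
theorem exists_lineFun_bound (f : CuspForm (Gamma1 N) 1) :
    ∃ C : ℝ, 0 ≤ C ∧ ∀ (t : ℝ) (ht : 0 < t) (u : ℝ), ‖lineFun f ht u‖ ^ 2 ≤ C / t := by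
  obtain ⟨C, hC⟩ := CuspFormClass.exists_bound f
  refine ⟨C ^ 2, sq_nonneg _, fun t ht u => ?_⟩
  have h1 := hC ⟨(u : ℂ) + t * I, by simpa using ht⟩
  have him : (⟨(u : ℂ) + t * I, by simpa using ht⟩ : ℍ).im = t := by
    change ((u : ℂ) + t * I).im = t
    simp
  rw [him] at h1
  have h2 : (0 : ℝ) ≤ t ^ (((1 : ℤ) : ℝ) / 2) := Real.rpow_nonneg ht.le _
  have h3 : (t ^ (((1 : ℤ) : ℝ) / 2)) ^ 2 = t := by
    rw [← Real.rpow_natCast, ← Real.rpow_mul ht.le]
    norm_num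
  have h4 : ‖lineFun f ht u‖ ≤ |C| / t ^ (((1 : ℤ) : ℝ) / 2) := by
    refine h1.trans ?_
    exact div_le_div_of_nonneg_right (le_abs_self C) h2
  calc ‖lineFun f ht u‖ ^ 2 ≤ (|C| / t ^ (((1 : ℤ) : ℝ) / 2)) ^ 2 :=
        pow_le_pow_left₀ (norm_nonneg _) h4 2
    _ = C ^ 2 / t := by rw [div_pow, h3, sq_abs]

/-- **Parseval on a horizontal line**: `∑_{n ∈ S} ‖a n‖² e^{-4πnt} ≤ B / t`. -/
theorem sum_sq_mul_exp_le (f : CuspForm (Gamma1 N) 1) :
    ∃ B : ℝ, 0 ≤ B ∧ ∀ t : ℝ, 0 < t → ∀ S : Finset ℕ,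
      ∑ n ∈ S, ‖qCoeff f n‖ ^ 2 * Real.exp (-(4 * π * n * t)) ≤ B / t := by
  obtain ⟨B, hB0, hB⟩ := exists_lineFun_bound f
  refine ⟨B, hB0, fun t ht S => ?_⟩
  have hcont := continuous_lineFun f ht
  have hL2 : MemLp (lineFun f ht) 2 (volume.restrict (Set.Ioc (0 : ℝ) 1)) := by
    refine MemLp.of_bound hcont.aestronglyMeasurable (Real.sqrt (B / t)) ?_
    refine Filter.Eventually.of_forall fun u => ?_
    exact Real.le_sqrt_of_sq_le (hB t ht u)
  have hP := hasSum_sq_fourierCoeffOn (zero_lt_one : (0 : ℝ) < 1) hL2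
  simp only [sub_zero, inv_one, one_smul] at hP
  -- the integral is bounded by `B / t`
  have hint : ∫ x in (0 : ℝ)..1, ‖lineFun f ht x‖ ^ 2 ≤ B / t := by
    have h1 : ∫ x in (0 : ℝ)..1, ‖lineFun f ht x‖ ^ 2 ≤ ∫ _x in (0 : ℝ)..1, B / t := by
      refine intervalIntegral.integral_mono_on zero_le_one ?_ ?_ fun x _ => hB t ht x
      · exact (hcont.norm.pow 2).intervalIntegrable _ _
      · exact continuous_const.intervalIntegrable _ _
    simpa using h1
  -- each term is a Fourier coefficient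
  have hterm : ∀ n : ℕ, ‖qCoeff f n‖ ^ 2 * Real.exp (-(4 * π * n * t)) =
      ‖fourierCoeffOn (zero_lt_one : (0 : ℝ) < 1) (lineFun f ht) (n : ℤ)‖ ^ 2 := by
    intro n
    rw [qCoeff_eq_exp_mul_fourierCoeffOn f ht n, norm_mul, mul_pow, Complex.norm_exp]
    have h1 : (2 * (π : ℂ) * n * t).re = 2 * π * n * t := by
      have : (2 * (π : ℂ) * n * t) = ((2 * π * n * t : ℝ) : ℂ) := by push_cast; ring
      rw [this, Complex.ofReal_re]
    rw [h1, mul_comm, ← mul_assoc, ← Real.exp_nat_mul, ← Real.exp_add]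
    have h2 : -(4 * π * n * t) + ((2 : ℕ) : ℝ) * (2 * π * n * t) = 0 := by push_cast; ring
    rw [h2, Real.exp_zero, one_mul]
  calc ∑ n ∈ S, ‖qCoeff f n‖ ^ 2 * Real.exp (-(4 * π * n * t))
      = ∑ i ∈ S.map Nat.castEmbedding,
          ‖fourierCoeffOn (zero_lt_one : (0 : ℝ) < 1) (lineFun f ht) i‖ ^ 2 := by
        rw [Finset.sum_map]
        exact Finset.sum_congr rfl fun n _ => hterm n
    _ ≤ ∫ x in (0 : ℝ)..1, ‖lineFun f ht x‖ ^ 2 :=
        sum_le_hasSum _ (fun i _ => sq_nonneg _) hP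
    _ ≤ B / t := hint

/-- **Mean square bound**: `∑_{n < M} ‖a n‖² ≤ A * M`. -/
theorem sum_sq_le (f : CuspForm (Gamma1 N) 1) :
    ∃ A : ℝ, 0 ≤ A ∧ ∀ M : ℕ, ∑ n ∈ Finset.range M, ‖qCoeff f n‖ ^ 2 ≤ A * M := by
  obtain ⟨B, hB0, hB⟩ := sum_sq_mul_exp_le f
  refine ⟨Real.exp (4 * π) * B, mul_nonneg (Real.exp_pos _).le hB0, fun M => ?_⟩
  rcases Nat.eq_zero_or_pos M with rfl | hM
  · simp
  have hMpos : (0 : ℝ) < M := by exact_mod_cast hM
  have h1 := hB (1 / M) (by positivity) (Finset.range M)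
  have h2 : ∑ n ∈ Finset.range M, ‖qCoeff f n‖ ^ 2 * Real.exp (-(4 * π)) ≤
      ∑ n ∈ Finset.range M, ‖qCoeff f n‖ ^ 2 * Real.exp (-(4 * π * n * (1 / M))) := by
    refine Finset.sum_le_sum fun n hn => ?_
    refine mul_le_mul_of_nonneg_left ?_ (sq_nonneg _)
    rw [Real.exp_le_exp, neg_le_neg_iff]
    have hn' : (n : ℝ) ≤ M := by exact_mod_cast (Finset.mem_range.1 hn).le
    have h3 : (n : ℝ) * (1 / M) ≤ 1 := by
      rw [mul_one_div]
      exact (div_le_one hMpos).2 hn'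
    calc 4 * π * n * (1 / M) = 4 * π * (n * (1 / M)) := by ring
      _ ≤ 4 * π * 1 := by
        refine mul_le_mul_of_nonneg_left h3 ?_
        positivity
      _ = 4 * π := by ring
  rw [← Finset.sum_mul] at h2
  have h3 : (∑ n ∈ Finset.range M, ‖qCoeff f n‖ ^ 2) * Real.exp (-(4 * π)) ≤ B / (1 / M) :=
    h2.trans h1
  rw [div_div_eq_mul_div, div_one] at h3
  calc ∑ n ∈ Finset.range M, ‖qCoeff f n‖ ^ 2
      = (∑ n ∈ Finset.range M, ‖qCoeff f n‖ ^ 2) * Real.exp (-(4 * π)) * Real.exp (4 * π) := by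
        rw [mul_assoc, ← Real.exp_add, neg_add_cancel, Real.exp_zero, mul_one]
    _ ≤ B * M * Real.exp (4 * π) := mul_le_mul_of_nonneg_right h3 (Real.exp_pos _).le
    _ = Real.exp (4 * π) * B * M := by ring

end Fermat.Agent.S48lib.Rankin
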