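/-
S48lib / Rankin / Main  (helper4).

**`DS.RankinStmt` is a theorem** (block U1 of the S48 plan): for a weight one cusp form `g` on
`Γ₁(N)` whose `q`-coefficients satisfy the formal Hecke relations with character `ε`,
`∑_{p ∤ N} ‖a_p(g)‖² p^{-s} ≤ log (1/(s-1)) + C` for `1 < s ≤ 2`.
(`MeanSquare.sum_sq_le` + `Euler.sum_primes_le`.)
-/
import Mathlib
import Fermat.Agent.S48lib.DS.Inputs
import Fermat.Agent.S48lib.Rankin.MeanSquare
import Fermat.Agent.S48lib.Rankin.Euler

set_option autoImplicit false

namespace Fermat.Agent.S48lib.Rankin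

open CongruenceSubgroup

/-- a Dirichlet character has absolute value one at primes not dividing the level -/
theorem norm_dirichletCharacter_prime {N : ℕ} (ε : DirichletCharacter ℂ N) {p : ℕ}
    (hp : p.Prime) (hpN : ¬ p ∣ N) : ‖ε (p : ZMod N)‖ = 1 := by
  have hc : Nat.Coprime p N := (Nat.Prime.coprime_iff_not_dvd hp).2 hpN
  have hu : IsUnit (p : ZMod N) := (ZMod.isUnit_iff_coprime p N).2 hc
  rw [← hu.unit_spec]
  exact DirichletCharacter.unit_norm_eq_one ε hu.unit

/-- **(I3) Rankin's bound, elementary form.** -/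
theorem rankinStmt : DS.RankinStmt := by
  intro N _ ε g hg
  obtain ⟨A, hA, hS⟩ := sum_sq_le g
  have h : FormalHecke N (fun p => ε (p : ZMod N)) (fun n => ModularFormClass.qCoeff g n) := hg
  exact sum_primes_le h (fun p hp hpN => norm_dirichletCharacter_prime ε hp hpN) hA hS

end Fermat.Agent.S48lib.Rankin
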